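import Mathlib
import Fermat.Agent.LT.T7.H193.KillSpec

/-!
# Row LT, tower T7, node T7.L2.1 `SupplyC`, sub-station NATURAL, leaf NAT.2 `NatSmoothC`
(registry 2199, helper517), OFF-MAIN.

`natSmoothC517 (K) : H193.NatSmoothC K` VERBATIM vs `T7/H193/KillSpec.lean`
(sha256 2cb0a205bd364545, helper193@4a1c7c2bb); imports = Mathlib + the spec closure.

* `contDiff_setIntegral_param517` (Mathlib only): the integral over a bounded measurable set of a
  finite-dimensional space of a jointly `C^∞` function is `C^∞` in the parameter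
  (from `contDiffOn_convolution_right_with_param`).
* `infComp_mul517`, `finComp_mul517`, `trivAtFin_mul517`: the components are multiplicative.
* the proof: `φ♮ (g h(t)) = vol(D)⁻¹ ∫_D φ (g H(t, s)) ds`, `H (t, s) = h(t) a(-s)` is a smooth
  family in `n + #{w ∣ ∞}` parameters supported at the infinite places.
-/

set_option autoImplicit false

open IsDedekindDomain NumberField MeasureTheory Set Filter Topology
open scoped ContDiff Convolution

noncomputable section

namespace Fermat.Agent.LT.T7.H517

universe uP uG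

/-! ## 1. Parametric integrals (Mathlib only) -/

section ParamInt

variable {P : Type uP} {G : Type uG} [NormedAddCommGroup P] [NormedSpace ℝ P]
  [NormedAddCommGroup G] [NormedSpace ℝ G] [FiniteDimensional ℝ G]
  [MeasurableSpace G] [BorelSpace G]

/-- **Parametric integrals over a bounded set.**  The integral over a bounded measurable set `D`
of a finite-dimensional space of a jointly `C^∞` function is `C^∞` in the parameter. -/
theorem contDiff_setIntegral_param517 {μ : Measure G} [SFinite μ] [μ.IsAddLeftInvariant]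
    [IsFiniteMeasureOnCompacts μ] {D : Set G} (hDm : MeasurableSet D)
    (hDb : Bornology.IsBounded D) {Φ : P × G → ℂ} (hΦ : ContDiff ℝ ∞ Φ) :
    ContDiff ℝ ∞ (fun p : P => ∫ s in D, Φ (p, s) ∂μ) := by
  obtain ⟨R, hR⟩ := hDb.subset_closedBall (0 : G)
  set R' : ℝ := max R 0 + 1 with hR'
  have hR'pos : 0 < R' := by positivity
  have hDR' : D ⊆ Metric.closedBall (0 : G) R' :=
    hR.trans (Metric.closedBall_subset_closedBall (by rw [hR']; linarith [le_max_left R 0]))
  let ψ : ContDiffBump (0 : G) := ⟨R', R' + 1, hR'pos, by linarith⟩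
  -- the weight
  let f : G → ℝ := Set.indicator D (fun _ => (1 : ℝ))
  have hμD : μ D < ⊤ :=
    lt_of_le_of_lt (measure_mono hDR') (isCompact_closedBall (0 : G) R').measure_lt_top
  have hf : LocallyIntegrable f μ := by
    apply Integrable.locallyIntegrable
    exact (integrable_indicator_iff hDm).mpr (integrableOn_const (hs := hμD.ne))
  -- the cut-off, reflected integrand
  let cut : P → G → ℂ := fun p x => (ψ x : ℝ) • Φ (p, -x)
  have hcut0 : ∀ p, ∀ x, p ∈ (univ : Set P) → x ∉ Metric.closedBall (0 : G) (R' + 1) →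
      cut p x = 0 := by
    intro p x _ hx
    have : (ψ x : ℝ) = 0 := by
      apply ψ.zero_of_le_dist
      rw [Metric.mem_closedBall, not_le] at hx
      exact hx.le
    simp only [cut, this, zero_smul]
  have hcutS : ContDiffOn ℝ ((⊤ : ℕ∞) : WithTop ℕ∞) ↿cut (univ ×ˢ univ) := by
    have h1 : ContDiff ℝ ∞ (fun q : P × G => (ψ q.2 : ℝ)) :=
      (ψ.contDiff (n := (⊤ : ℕ∞))).comp contDiff_snd
    have h2 : ContDiff ℝ ∞ (fun q : P × G => Φ (q.1, -q.2)) :=
      hΦ.comp (contDiff_fst.prodMk contDiff_snd.neg)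
    exact (h1.smul h2).contDiffOn
  have key : ContDiffOn ℝ ((⊤ : ℕ∞) : WithTop ℕ∞)
      (fun q : P × G =>
        (f ⋆[(ContinuousLinearMap.lsmul ℝ ℝ : ℝ →L[ℝ] ℂ →L[ℝ] ℂ), μ] cut q.1) q.2)
      (univ ×ˢ univ) :=
    contDiffOn_convolution_right_with_param (μ := μ)
      (ContinuousLinearMap.lsmul ℝ ℝ : ℝ →L[ℝ] ℂ →L[ℝ] ℂ) (f := f) (g := cut)
      (s := univ) (k := Metric.closedBall (0 : G) (R' + 1)) isOpen_univ
      (isCompact_closedBall _ _) hcut0 hf hcutS
  rw [univ_prod_univ] at key
  have key2 := (contDiffOn_univ.mp key).comp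
    (contDiff_id.prodMk (contDiff_const (c := (0 : G))) : ContDiff ℝ ∞ fun p : P => (p, (0 : G)))
  have e : (fun p : P => ∫ s in D, Φ (p, s) ∂μ)
      = (fun q : P × G =>
          (f ⋆[(ContinuousLinearMap.lsmul ℝ ℝ : ℝ →L[ℝ] ℂ →L[ℝ] ℂ), μ] cut q.1) q.2)
        ∘ fun p : P => (p, (0 : G)) := by
    funext p
    simp only [Function.comp_apply]
    rw [MeasureTheory.convolution_def, ← integral_indicator hDm]
    congr 1
    funext t
    by_cases ht : t ∈ D
    · have hχ : (ψ (-t) : ℝ) = 1 := by
        apply ψ.one_of_mem_closedBall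
        have := hDR' ht
        rw [Metric.mem_closedBall, dist_zero_right] at this ⊢
        rw [norm_neg]
        exact this
      simp only [f, cut, Set.indicator_of_mem ht, ContinuousLinearMap.lsmul_apply,
        one_smul, zero_sub, neg_neg, hχ]
    · simp only [f, Set.indicator_of_notMem ht, ContinuousLinearMap.lsmul_apply, zero_smul]
  rw [e]
  exact key2

end ParamInt

/-! ## 2. The components are multiplicative -/

section Comp

open Fermat.Agent.LT.H556 Fermat.Agent.LT.H556.A0 Fermat.Agent.LT

variable {K : Type} [Field K] [NumberField K]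

theorem infComp_mul517 (w : InfinitePlace K) (x y : G K) :
    infComp w (x * y) = infComp w x * infComp w y := by
  ext i j
  simp only [infComp, Units.val_mul, Matrix.mul_apply, Fin.sum_univ_two]
  have h1 : ∀ p q : Adl K, (p + q).1 w = p.1 w + q.1 w := fun _ _ => rfl
  have h2 : ∀ p q : Adl K, (p * q).1 w = p.1 w * q.1 w := fun _ _ => rfl
  rw [h1, h2, h2, map_add, map_mul, map_mul]

theorem finComp_mul517 (v : HeightOneSpectrum (𝓞 K)) (x y : G K) :
    finComp v (x * y) = finComp v x * finComp v y := by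
  ext i j
  simp only [finComp, Units.val_mul, Matrix.mul_apply, Fin.sum_univ_two]
  have h1 : ∀ p q : Adl K, (p + q).2 v = p.2 v + q.2 v := fun _ _ => rfl
  have h2 : ∀ p q : Adl K, (p * q).2 v = p.2 v * q.2 v := fun _ _ => rfl
  rw [h1, h2, h2]

theorem trivAtFin_mul517 {v : HeightOneSpectrum (𝓞 K)} {x y : G K} (hx : TrivAtFin v x)
    (hy : TrivAtFin v y) : TrivAtFin v (x * y) := by
  unfold TrivAtFin at *
  rw [finComp_mul517, hx, hy, mul_one]

end Comp

/-! ## 3. The leaf -/

section Leaf

open Fermat.Agent.LT.H556 Fermat.Agent.LT.H556.A0 Fermat.Agent.LT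

attribute [local instance] Fermat.Agent.LT.T5.instMeasurableSpaceG

/-- **LEAF NAT.2 = NAT-SMOOTH** (registry 2199), VERBATIM. -/
theorem natSmoothC517 (K : Type) [Field K] [NumberField K] : H193.NatSmoothC K := by
  intro _ 𝔑 r a D hD φ _ _ hφ n h hfin hsm g
  -- `(a s)⁻¹ = a (-s)`
  have ha0 : a 0 = 1 := by
    have h0 := hD.mul 0 0
    rw [add_zero] at h0
    exact (mul_eq_left).mp h0.symm
  have hainv : ∀ s, (a s)⁻¹ = a (-s) := by
    intro s
    exact inv_eq_of_mul_eq_one_right (by rw [← hD.mul, add_neg_cancel, ha0])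
  -- the joint family
  let m : ℕ := Fintype.card (InfinitePlace K)
  let e : InfinitePlace K ≃ Fin m := Fintype.equivFin (InfinitePlace K)
  let H : (Fin (n + m) → ℝ) → G K := fun u =>
    h (fun i => u (Fin.castAdd m i)) * a (fun w => - u (Fin.natAdd n (e w)))
  have hHfin : ∀ (u : Fin (n + m) → ℝ) (v : HeightOneSpectrum (𝓞 K)), TrivAtFin v (H u) :=
    fun u v => trivAtFin_mul517 (hfin _ v) (hD.fin _ v)
  have hproj : ContDiff ℝ ∞ (fun u : Fin (n + m) → ℝ => fun i : Fin n => u (Fin.castAdd m i)) :=
    contDiff_pi.2 fun i => contDiff_apply ℝ ℝ (Fin.castAdd m i)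
  have hHsm : ∀ (w : InfinitePlace K) (i j : Fin 2),
      ContDiff ℝ ∞ (fun u => infComp w (H u) i j) := by
    intro w i j
    have hE : (fun u => infComp w (H u) i j)
        = fun u : Fin (n + m) → ℝ => infComp w (h (fun i => u (Fin.castAdd m i))) i j
            * ((Real.exp (- u (Fin.natAdd n (e w))) : ℝ) : ℂ) := by
      funext u
      show infComp w (h _ * a _) i j = _
      rw [infComp_mul517, hD.inf, Matrix.mul_apply, Fin.sum_univ_two]
      fin_cases j <;> simp [Matrix.diagonal]
    rw [hE]
    have h1 : ContDiff ℝ ∞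
        (fun u : Fin (n + m) → ℝ => infComp w (h (fun i => u (Fin.castAdd m i))) i j) :=
      (hsm w i j).comp hproj
    have h2 : ContDiff ℝ ∞
        (fun u : Fin (n + m) → ℝ => ((Real.exp (- u (Fin.natAdd n (e w))) : ℝ) : ℂ)) :=
      Complex.ofRealCLM.contDiff.comp
        (Real.contDiff_exp.comp (contDiff_apply ℝ ℝ (Fin.natAdd n (e w))).neg)
    exact h1.mul h2
  have hjoint := hφ (n + m) H hHfin hHsm g
  -- the reparametrisation
  let Lmap : (Fin n → ℝ) × (InfinitePlace K → ℝ) → (Fin (n + m) → ℝ) := fun q k =>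
    Fin.addCases (motive := fun _ => ℝ) (fun i => q.1 i) (fun j => q.2 (e.symm j)) k
  have hL : ContDiff ℝ ∞ Lmap := by
    refine contDiff_pi.2 fun k => ?_
    refine Fin.addCases (motive := fun k => ContDiff ℝ ∞ fun q => Lmap q k) (fun i => ?_)
      (fun j => ?_) k
    · have : (fun q : (Fin n → ℝ) × (InfinitePlace K → ℝ) => Lmap q (Fin.castAdd m i))
          = fun q => q.1 i := by
        funext q
        simp only [Lmap, Fin.addCases_left]
      rw [this]
      exact (contDiff_apply ℝ ℝ i).comp contDiff_fst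
    · have : (fun q : (Fin n → ℝ) × (InfinitePlace K → ℝ) => Lmap q (Fin.natAdd n j))
          = fun q => q.2 (e.symm j) := by
        funext q
        simp only [Lmap, Fin.addCases_right]
      rw [this]
      exact (contDiff_apply ℝ ℝ (e.symm j)).comp contDiff_snd
  have hΦ : ContDiff ℝ ∞
      (fun q : (Fin n → ℝ) × (InfinitePlace K → ℝ) => φ (g * h q.1 * (a q.2)⁻¹)) := by
    have hc := hjoint.comp hL
    have hE : (fun q : (Fin n → ℝ) × (InfinitePlace K → ℝ) => φ (g * h q.1 * (a q.2)⁻¹))
        = (fun u => φ (g * H u)) ∘ Lmap := by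
      funext q
      simp only [Function.comp_apply, H, Lmap, Fin.addCases_left, Fin.addCases_right,
        Equiv.symm_apply_apply, hainv, mul_assoc]
      rfl
    rw [hE]
    exact hc
  have hint := contDiff_setIntegral_param517 (μ := (volume : Measure (InfinitePlace K → ℝ)))
    hD.meas hD.bdd hΦ
  show ContDiff ℝ ∞ (fun t => H193.nat193 a D φ (g * h t))
  unfold H193.nat193
  exact contDiff_const.mul hint

end Leaf

end Fermat.Agent.LT.T7.H517

end
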