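import Mathlib
import Fermat.Agent.LT.T7.H943.IotaSpec

/-!
# Row LT, tower T7, leaf T7.L2.1.C2.4.3 `IotaNormC943` (registry 2522, helper517), OFF-MAIN.

`iotaNormC517 (K K') : H943.IotaNormC943 K K'` VERBATIM vs `T7/H943/IotaSpec.lean`
(sha256 7da0d68c26cea449, helper943@64e398e16); imports = Mathlib + the spec closure.

THE NORM OF THE BASE CHANGE OF AN IDELE, for an ARBITRARY extension `L / K` of number fields:

    adNorm_bcAdele517 : T5.adNorm (bcAdele743 K L x) = T5.adNorm x ^ [L : K]    (x an idele of K)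

* infinite part: the completion maps are isometries (`norm_infLoc517`) and
  `∑_{u ∣ v} mult u = mult v · [L : K]` (`sum_mult_fiber517`, from Mathlib
  `InfinitePlace.sum_inertiaDeg_eq_finrank`, `mult_mul_finrank`);
* finite part: `‖i_w c‖_w = ‖c‖_v ^ (e_w f_w)` (`norm_finLoc517`, from `valued_finLoc743` and
  `N w = (N v) ^ f_w`), `∑_{w ∣ v} e_w f_w = [L : K]` (`sum_ram_res_fiber517`, from Mathlib
  `Ideal.sum_ramification_inertia`), regrouping of the finite product by the fibres.
-/

set_option autoImplicit false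
set_option linter.style.haveILetI false
set_option linter.unusedSectionVars false
set_option linter.deprecated false

open NumberField IsDedekindDomain

noncomputable section

namespace Fermat.Agent.LT.T7.H517

open Fermat.Agent.LT.A2.H743 Fermat.Agent.LT.H556.A0 Fermat.Agent.LT.T7

variable (K L : Type) [Field K] [NumberField K] [Field L] [NumberField L] [Algebra K L]

/-! ## 1. The infinite places -/

/-- The completion maps at the infinite places are isometries. -/
theorem norm_infLoc517 (u : InfinitePlace L) (c : (infUnder743 K L u).Completion) :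
    ‖infLoc743 K L u c‖ = ‖c‖ := by
  have hiso := (InfinitePlace.LiesOver.isometry_algebraMap u (infUnder743 K L u)).completion_map
  have h0 : UniformSpace.Completion.map
      (algebraMap (WithAbs (infUnder743 K L u).1) (WithAbs u.1)) 0 = 0 :=
    (UniformSpace.Completion.mapRingHom
      (algebraMap (WithAbs (infUnder743 K L u).1) (WithAbs u.1))
      (InfinitePlace.LiesOver.isometry_algebraMap u (infUnder743 K L u)).continuous).map_zero
  have h1 : ∀ y : (infUnder743 K L u).1.Completion,
      ‖UniformSpace.Completion.map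
        (algebraMap (WithAbs (infUnder743 K L u).1) (WithAbs u.1)) y‖ = ‖y‖ := by
    intro y
    have := hiso.dist_eq y 0
    rw [h0, dist_zero_right, dist_zero_right] at this
    exact this
  exact h1 c.toCompletion

open scoped Classical in
/-- `∑_{u ∣ v} mult u = mult v · [L : K]`. -/
theorem sum_mult_fiber517 (v : InfinitePlace K) :
    ∑ u ∈ Finset.univ.filter (fun u : InfinitePlace L => infUnder743 K L u = v), u.mult
      = v.mult * Module.finrank K L := by
  have hset : Finset.univ.filter (fun u : InfinitePlace L => infUnder743 K L u = v)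
      = (InfinitePlace.placesOver L v).toFinset := by
    ext u
    simp only [Finset.mem_filter, Finset.mem_univ, true_and, Set.mem_toFinset]
    constructor
    · rintro rfl
      exact infUnder_liesOver743 K L u
    · intro h
      have : u.LiesOver v := h
      exact InfinitePlace.LiesOver.comap_eq u v
  rw [hset, ← InfinitePlace.sum_inertiaDeg_eq_finrank K L v, Finset.mul_sum]
  refine Finset.sum_congr rfl fun u hu => ?_
  have hmem : u ∈ InfinitePlace.placesOver L v := Set.mem_toFinset.1 hu
  have : u.LiesOver v := hmem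
  rw [InfinitePlace.inertiaDeg_eq_finrank v u, InfinitePlace.mult_mul_finrank v u]

/-- The infinite part of the norm. -/
theorem infPart517 (x : Adl K) :
    ∏ u : InfinitePlace L, ‖(bcAdele743 K L x).1 u‖ ^ u.mult
      = (∏ v : InfinitePlace K, ‖x.1 v‖ ^ v.mult) ^ Module.finrank K L := by
  classical
  have h1 : ∀ u : InfinitePlace L,
      ‖(bcAdele743 K L x).1 u‖ ^ u.mult = ‖x.1 (infUnder743 K L u)‖ ^ u.mult := by
    intro u
    rw [bcAdele_fst743, norm_infLoc517]
  simp only [h1]
  rw [← Finset.prod_fiberwise_of_maps_to (s := (Finset.univ : Finset (InfinitePlace L)))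
    (t := (Finset.univ : Finset (InfinitePlace K))) (g := infUnder743 K L)
    (fun _ _ => Finset.mem_univ _), ← Finset.prod_pow]
  refine Finset.prod_congr rfl fun v _ => ?_
  have h2 : ∀ u ∈ Finset.univ.filter (fun u : InfinitePlace L => infUnder743 K L u = v),
      ‖x.1 (infUnder743 K L u)‖ ^ u.mult = ‖x.1 v‖ ^ u.mult := by
    intro u hu
    rw [(Finset.mem_filter.1 hu).2]
  rw [Finset.prod_congr rfl h2, Finset.prod_pow_eq_pow_sum, sum_mult_fiber517, pow_mul]

/-! ## 2. The finite places: local part -/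

/-- The residue degree of `w` over the place under it. -/
def resDeg517 (w : HeightOneSpectrum (𝓞 L)) : ℕ :=
  (finUnder743 K L w).asIdeal.inertiaDeg' w.asIdeal

theorem absNorm_eq_pow517 (w : HeightOneSpectrum (𝓞 L)) :
    Ideal.absNorm w.asIdeal = Ideal.absNorm (finUnder743 K L w).asIdeal ^ resDeg517 K L w := by
  haveI : (finUnder743 K L w).asIdeal.IsMaximal := (finUnder743 K L w).isMaximal
  letI := Ideal.Quotient.field (finUnder743 K L w).asIdeal
  rw [Ideal.absNorm_apply, Submodule.cardQuot_apply, Ideal.absNorm_apply, Submodule.cardQuot_apply,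
    resDeg517, Ideal.inertiaDeg'_algebraMap]
  exact Module.natCard_eq_pow_finrank

theorem resDeg_pos517 (w : HeightOneSpectrum (𝓞 L)) : 0 < resDeg517 K L w := by
  haveI : (finUnder743 K L w).asIdeal.IsMaximal := (finUnder743 K L w).isMaximal
  exact Ideal.inertiaDeg'_pos _ _

/-- `‖i_w c‖_w = ‖c‖_v ^ (e_w f_w)`. -/
theorem norm_finLoc517 (w : HeightOneSpectrum (𝓞 L))
    (c : (finUnder743 K L w).adicCompletion K) :
    ‖finLoc743 K L w c‖ = ‖c‖ ^ (ramIdx743 K L w * resDeg517 K L w) := by
  rw [FinitePlace.norm_def, FinitePlace.norm_def, valued_finLoc743, map_pow, pow_mul']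
  norm_cast
  congr 1
  by_cases hz : Valued.v c = 0
  · rw [WithZeroMulInt.toNNReal_pos_apply _ hz, WithZeroMulInt.toNNReal_pos_apply _ hz,
      zero_pow (resDeg_pos517 K L w).ne']
  · rw [WithZeroMulInt.toNNReal_neg_apply _ hz, WithZeroMulInt.toNNReal_neg_apply _ hz,
      absNorm_eq_pow517 K L w]
    push_cast
    rw [← zpow_natCast, ← zpow_natCast, ← zpow_mul, ← zpow_mul, mul_comm]

/-! ## 3. The finite places: the fibres -/

/-- The fibre of `finUnder743` over `v`, as a finset. -/
def fiber517 (v : HeightOneSpectrum (𝓞 K)) : Finset (HeightOneSpectrum (𝓞 L)) :=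
  (finite_fiber_finUnder743 K L v).toFinset

theorem mem_fiber517 {v : HeightOneSpectrum (𝓞 K)} {w : HeightOneSpectrum (𝓞 L)} :
    w ∈ fiber517 K L v ↔ finUnder743 K L w = v := by
  simp only [fiber517, Set.Finite.mem_toFinset, Set.mem_preimage, Set.mem_singleton_iff]

/-- `∑_{w ∣ v} e_w f_w = [L : K]`. -/
theorem sum_ram_res_fiber517 (v : HeightOneSpectrum (𝓞 K)) :
    ∑ w ∈ fiber517 K L v, ramIdx743 K L w * resDeg517 K L w = Module.finrank K L := by
  classical
  haveI : v.asIdeal.IsMaximal := v.isMaximal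
  rw [← Ideal.sum_ramification_inertia (𝓞 L) K L (p := v.asIdeal) v.ne_bot]
  refine Finset.sum_nbij (fun w => w.asIdeal) ?_ ?_ ?_ ?_
  · intro w hw
    have hv := mem_fiber517 K L |>.1 hw
    rw [IsDedekindDomain.mem_primesOverFinset_iff v.ne_bot]
    refine ⟨w.isPrime, ⟨?_⟩⟩
    rw [← hv]
    rfl
  · intro w₁ _ w₂ _ h
    exact HeightOneSpectrum.ext h
  · intro P hP
    rw [Finset.mem_coe, IsDedekindDomain.mem_primesOverFinset_iff v.ne_bot] at hP
    obtain ⟨hPp, hPo⟩ := hP
    have hne : P ≠ ⊥ := by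
      haveI := hPo
      exact Ideal.ne_bot_of_liesOver_of_ne_bot v.ne_bot P
    refine ⟨⟨P, hPp, hne⟩, ?_, rfl⟩
    rw [Finset.mem_coe, mem_fiber517]
    apply HeightOneSpectrum.ext
    show P.under (𝓞 K) = v.asIdeal
    exact hPo.over.symm
  · intro w hw
    have hv := mem_fiber517 K L |>.1 hw
    subst hv
    rfl

/-! ## 4. The finite part of the norm -/

/-- The local norms of an idele are `1` at almost all places. -/
theorem finite_mulSupport_idele517 (x : (Adl K)ˣ) :
    (Function.mulSupport fun v : HeightOneSpectrum (𝓞 K) => ‖(x : Adl K).2 v‖).Finite := by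
  have h1 := RestrictedProduct.eventually _ _ (x : Adl K).2
  have h2 := RestrictedProduct.eventually _ _ ((x⁻¹ : (Adl K)ˣ) : Adl K).2
  have h3 : ∀ᶠ v : HeightOneSpectrum (𝓞 K) in Filter.cofinite, ‖(x : Adl K).2 v‖ = 1 := by
    filter_upwards [h1, h2] with v hv1 hv2
    have hmul : (x : Adl K).2 v * ((x⁻¹ : (Adl K)ˣ) : Adl K).2 v = 1 := by
      have h := congrArg (fun a : Adl K => a.2 v) (Units.mul_inv x)
      exact h
    have hn : ‖(x : Adl K).2 v‖ * ‖((x⁻¹ : (Adl K)ˣ) : Adl K).2 v‖ = 1 := by
      rw [← norm_mul, hmul, norm_one]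
    have ha : ‖(x : Adl K).2 v‖ ≤ 1 := Valued.toNormedField.norm_le_one_iff.2 hv1
    have hb : ‖((x⁻¹ : (Adl K)ˣ) : Adl K).2 v‖ ≤ 1 := Valued.toNormedField.norm_le_one_iff.2 hv2
    have ha0 : 0 ≤ ‖(x : Adl K).2 v‖ := norm_nonneg _
    have hb0 : 0 ≤ ‖((x⁻¹ : (Adl K)ˣ) : Adl K).2 v‖ := norm_nonneg _
    nlinarith
  exact h3

/-- The finite part of the norm. -/
theorem finPart517 (x : (Adl K)ˣ) :
    ∏ᶠ w : HeightOneSpectrum (𝓞 L), ‖(bcAdele743 K L (x : Adl K)).2 w‖
      = (∏ᶠ v : HeightOneSpectrum (𝓞 K), ‖(x : Adl K).2 v‖) ^ Module.finrank K L := by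
  classical
  set g : HeightOneSpectrum (𝓞 K) → ℝ := fun v => ‖(x : Adl K).2 v‖ with hg
  have hfin := finite_mulSupport_idele517 K x
  set S : Finset (HeightOneSpectrum (𝓞 K)) := hfin.toFinset with hS
  set S' : Finset (HeightOneSpectrum (𝓞 L)) := S.biUnion (fiber517 K L) with hS'
  have hG : ∀ w : HeightOneSpectrum (𝓞 L), ‖(bcAdele743 K L (x : Adl K)).2 w‖
      = g (finUnder743 K L w) ^ (ramIdx743 K L w * resDeg517 K L w) := by
    intro w
    rw [bcAdele_snd743, norm_finLoc517]
  simp only [hG]
  have hsupp : Function.mulSupport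
      (fun w : HeightOneSpectrum (𝓞 L) =>
        g (finUnder743 K L w) ^ (ramIdx743 K L w * resDeg517 K L w)) ⊆ ↑S' := by
    intro w hw
    rw [Function.mem_mulSupport] at hw
    rw [Finset.mem_coe, hS', Finset.mem_biUnion]
    refine ⟨finUnder743 K L w, ?_, (mem_fiber517 K L).2 rfl⟩
    rw [hS, Set.Finite.mem_toFinset, Function.mem_mulSupport]
    intro h1
    apply hw
    have h2 : g (finUnder743 K L w) = 1 := h1
    rw [h2, one_pow]
  rw [finprod_eq_prod_of_mulSupport_subset _ hsupp,
    finprod_eq_prod_of_mulSupport_subset g (s := S) (by rw [hS, Set.Finite.coe_toFinset]),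
    ← Finset.prod_pow]
  have hmaps : ∀ w ∈ S', finUnder743 K L w ∈ S := by
    intro w hw
    rw [hS', Finset.mem_biUnion] at hw
    obtain ⟨v, hv, hwv⟩ := hw
    rw [(mem_fiber517 K L).1 hwv]
    exact hv
  rw [← Finset.prod_fiberwise_of_maps_to hmaps]
  refine Finset.prod_congr rfl fun v hv => ?_
  have hfilter : S'.filter (fun w => finUnder743 K L w = v) = fiber517 K L v := by
    ext w
    rw [Finset.mem_filter, mem_fiber517]
    constructor
    · exact fun h => h.2
    · intro h
      refine ⟨?_, h⟩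
      rw [hS', Finset.mem_biUnion]
      exact ⟨v, hv, (mem_fiber517 K L).2 h⟩
  rw [hfilter]
  have h2 : ∀ w ∈ fiber517 K L v,
      g (finUnder743 K L w) ^ (ramIdx743 K L w * resDeg517 K L w)
        = g v ^ (ramIdx743 K L w * resDeg517 K L w) := by
    intro w hw
    rw [(mem_fiber517 K L).1 hw]
  rw [Finset.prod_congr rfl h2, Finset.prod_pow_eq_pow_sum, sum_ram_res_fiber517]

/-! ## 5. The norm of the base change -/

/-- **The norm of the base change of an idele**, for an arbitrary extension of number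
fields. -/
theorem adNorm_bcAdele517 (x : (Adl K)ˣ) :
    T5.adNorm (bcAdele743 K L (x : Adl K)) = T5.adNorm (x : Adl K) ^ Module.finrank K L := by
  unfold T5.adNorm
  rw [mul_pow, ← infPart517 K L (x : Adl K), ← finPart517 K L x]

/-- **LEAF I.3 = IOTA-NORM** (registry 2522), VERBATIM. -/
theorem iotaNormC517 (K K' : Type) [Field K] [NumberField K] [Field K'] [NumberField K']
    [Algebra K K'] : H943.IotaNormC943 K K' := by
  intro ℓ hcyc _ x
  rw [H943.iota943_def, adNorm_bcAdele517 K K' x, hcyc.degree]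

end Fermat.Agent.LT.T7.H517

end
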